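import Fermat.Agent.LT.A2.Theta

/-!
# Row LT, tower A2, leaf A2.12 `CuspOfWhitC` (helper409)

OFF-MAIN.  `cuspOfWhitC409 : Fermat.Agent.LT.A2.CuspOfWhitC`.

A function `φ` on `GL₂(𝔸_K)` with a Fourier--Whittaker expansion
`φ(g) = ∑_{α ∈ K^×} W(diag(α,1) g)` (normally convergent on compacta, `W(n(x) g) = ψ(x) W(g)`)
is cuspidal:

    ∫_D φ(n(x) g) dx = ∑_α W(diag(α,1) g) ∫_D ψ(α x) dx = 0 ,

because `x ↦ ψ(α x)` is a nontrivial character of `𝔸_K` which is trivial on `K`
(orthogonality: translate the fundamental domain `D` by `a` with `ψ(α a) ≠ 1`).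
The interchange of `∑` and `∫` is dominated convergence on the finite measure space `D`
(`AdeleQuotC`), with the summable majorant of `IsWhitExp.loc_summable` on the compact `{g}`.
-/

set_option autoImplicit false
set_option linter.style.haveILetI false

open IsDedekindDomain NumberField AutomorphicForm MeasureTheory
open scoped MatrixGroups Pointwise

noncomputable section

namespace Fermat.Agent.LT.A2.H409

open Fermat.Agent.LT.H130 Fermat.Agent.LT.H556

variable {K : Type} [Field K] [NumberField K]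

/-! ## Countability -/

theorem countableField409 (K : Type) [Field K] [NumberField K] : Countable K :=
  Finsupp.Countable.of_moduleFinite (R := ℚ) (M := K)

theorem countableUnits409 (K : Type) [Field K] [NumberField K] : Countable Kˣ :=
  have := countableField409 K
  Function.Injective.countable (f := fun u : Kˣ => (u : K)) Units.val_injective

theorem countableRange409 (K : Type) [Field K] [NumberField K] :
    Countable ((algebraMap K (A0.Adl K)).toAddMonoidHom.range) := by
  have := countableField409 K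
  have h : ((algebraMap K (A0.Adl K)).toAddMonoidHom.range : Set (A0.Adl K)) =
      Set.range (algebraMap K (A0.Adl K)) := by
    ext x
    simp
  have h2 : (Set.range (algebraMap K (A0.Adl K))).Countable := Set.countable_range _
  rw [← h] at h2
  exact h2.to_subtype

/-! ## The explicit parametrisations -/

/-- The upper unipotent `[[1, x], [0, 1]]`. -/
def nU409 (x : A0.Adl K) : A0.G K :=
  ⟨!![1, x; 0, 1], !![1, -x; 0, 1],
    by ext i j; fin_cases i <;> fin_cases j <;> simp [Matrix.mul_apply, Fin.sum_univ_two],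
    by ext i j; fin_cases i <;> fin_cases j <;> simp [Matrix.mul_apply, Fin.sum_univ_two]⟩

/-- The rational diagonal `diag(α, 1)`. -/
def dR409 (α : Kˣ) : A0.G K :=
  ⟨!![algebraMap K (A0.Adl K) (α : K), 0; 0, 1],
    !![algebraMap K (A0.Adl K) ((α⁻¹ : Kˣ) : K), 0; 0, 1],
    by
      ext i j
      fin_cases i <;> fin_cases j <;>
        simp [Matrix.mul_apply, Fin.sum_univ_two, ← map_mul],
    by
      ext i j
      fin_cases i <;> fin_cases j <;>
        simp [Matrix.mul_apply, Fin.sum_univ_two, ← map_mul]⟩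

theorem isUpperUnip_nU409 : IsUpperUnip (nU409 (K := K)) := fun _ => rfl

theorem isRatDiag_dR409 : IsRatDiag (dR409 (K := K)) := fun _ => rfl

theorem eq_nU409 (n : A0.Adl K → A0.G K)
    (hn : ∀ x : A0.Adl K, (n x : Matrix (Fin 2) (Fin 2) (A0.Adl K)) = !![1, x; 0, 1]) :
    n = nU409 := by
  funext x
  apply Units.ext
  rw [hn x]
  rfl

theorem dR_mul_nU409 (α : Kˣ) (x : A0.Adl K) :
    dR409 α * nU409 x = nU409 (algebraMap K (A0.Adl K) (α : K) * x) * dR409 α := by
  apply Units.ext
  show (!![algebraMap K (A0.Adl K) (α : K), 0; 0, 1] : Matrix (Fin 2) (Fin 2) (A0.Adl K))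
      * !![1, x; 0, 1]
    = !![1, algebraMap K (A0.Adl K) (α : K) * x; 0, 1]
      * !![algebraMap K (A0.Adl K) (α : K), 0; 0, 1]
  ext i j
  fin_cases i <;> fin_cases j <;> simp [Matrix.mul_apply, Fin.sum_univ_two]

/-! ## Orthogonality of the characters of `𝔸_K / K` -/

section Orth

variable [MeasurableSpace (A0.Adl K)] [BorelSpace (A0.Adl K)]

/-- A nontrivial "character" of `𝔸_K`, trivial on `K`, has integral `0` on every fundamental
domain of `K` in `𝔸_K`. -/
theorem setIntegral_char_eq_zero409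
    (μ : Measure (A0.Adl K)) [μ.IsAddHaarMeasure] (D : Set (A0.Adl K))
    (hD : IsAddFundamentalDomain ((algebraMap K (A0.Adl K)).toAddMonoidHom.range) D μ)
    (χ : A0.Adl K → ℂ) (hadd : ∀ x y : A0.Adl K, χ (x + y) = χ x * χ y)
    (htriv : ∀ k : K, χ (algebraMap K (A0.Adl K) k) = 1)
    (a : A0.Adl K) (ha : χ a ≠ 1) :
    ∫ x in D, χ x ∂μ = 0 := by
  have := countableRange409 K
  have hinv : ∀ (γ : (algebraMap K (A0.Adl K)).toAddMonoidHom.range) (x : A0.Adl K),
      χ (γ +ᵥ x) = χ x := by
    rintro ⟨y, k, rfl⟩ x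
    show χ ((algebraMap K (A0.Adl K)) k + x) = χ x
    rw [hadd, htriv, one_mul]
  have hD' : IsAddFundamentalDomain ((algebraMap K (A0.Adl K)).toAddMonoidHom.range)
      (a +ᵥ D) μ := hD.vadd_of_comm a
  have e1 : ∫ x in a +ᵥ D, χ x ∂μ = ∫ x in D, χ x ∂μ := hD'.setIntegral_eq hD hinv
  have e2 : ∫ x in a +ᵥ D, χ x ∂μ = ∫ x in D, χ (a + x) ∂μ := by
    have := (measurePreserving_add_left μ a).setIntegral_image_emb
      (MeasurableEquiv.addLeft a).measurableEmbedding χ D
    rw [← this]
    rfl
  have e3 : ∫ x in D, χ (a + x) ∂μ = χ a * ∫ x in D, χ x ∂μ := by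
    simp_rw [hadd a]
    exact integral_const_mul _ _
  have e4 : (χ a - 1) * ∫ x in D, χ x ∂μ = 0 := by
    rw [sub_mul, one_mul, ← e3, ← e2, e1, sub_self]
  rcases mul_eq_zero.mp e4 with h | h
  · exact absurd (sub_eq_zero.mp h) ha
  · exact h

end Orth

/-! ## The leaf -/

/-- **A2.12 CUSP-OF-WHIT.**  A function with a Fourier--Whittaker expansion is cuspidal. -/
theorem cuspOfWhitC409 : Fermat.Agent.LT.A2.CuspOfWhitC := by
  intro hAQ K _ _ π ψ φ W hP
  letI : MeasurableSpace (A0.Adl K) := borel (A0.Adl K)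
  haveI : BorelSpace (A0.Adl K) := ⟨rfl⟩
  intro μ hμ D hD n hn g
  haveI := hμ
  have hcK := countableUnits409 K
  have hfin : μ D < ⊤ := (hAQ K).1 μ hμ D hD
  haveI : IsFiniteMeasure (μ.restrict D) := ⟨by rwa [Measure.restrict_apply_univ]⟩
  obtain rfl := eq_nU409 n hn
  -- the terms of the expansion of `x ↦ φ (n x * g)`
  have hexp : ∀ x : A0.Adl K, φ (nU409 x * g)
      = ∑' α : Kˣ, ψ (algebraMap K (A0.Adl K) (α : K) * x) * W (dR409 α * g) := by
    intro x
    rw [hP.whit.expansion dR409 isRatDiag_dR409 (nU409 x * g)]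
    congr 1
    funext α
    rw [← mul_assoc, dR_mul_nU409, mul_assoc, hP.whit.equiv nU409 isUpperUnip_nU409]
  -- the summable majorant
  obtain ⟨b, hb, hbW⟩ := hP.whit.loc_summable {g} isCompact_singleton
  have hWb : ∀ α : Kˣ, ‖W (dR409 α * g)‖ ≤ b α :=
    fun α => hbW dR409 isRatDiag_dR409 α g rfl
  have hnorm : ∀ (α : Kˣ) (x : A0.Adl K),
      ‖ψ (algebraMap K (A0.Adl K) (α : K) * x) * W (dR409 α * g)‖ = ‖W (dR409 α * g)‖ := by
    intro α x
    rw [norm_mul, hP.char.norm_one, one_mul]
  have hint : ∀ α : Kˣ, Integrable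
      (fun x : A0.Adl K => ψ (algebraMap K (A0.Adl K) (α : K) * x) * W (dR409 α * g))
      (μ.restrict D) := by
    intro α
    refine Integrable.mono' (integrable_const (b α)) ?_ (ae_of_all _ fun x => ?_)
    · have h1 : Continuous fun x : A0.Adl K => ψ (algebraMap K (A0.Adl K) (α : K) * x) :=
        hP.char.cont.comp (continuous_const.mul continuous_id)
      exact (h1.mul continuous_const).aestronglyMeasurable
    · rw [hnorm]
      exact hWb α
  have hsum : Summable fun α : Kˣ =>
      ∫ x, ‖ψ (algebraMap K (A0.Adl K) (α : K) * x) * W (dR409 α * g)‖ ∂(μ.restrict D) := by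
    simp_rw [hnorm, integral_const, smul_eq_mul]
    exact (Summable.of_nonneg_of_le (fun α => norm_nonneg _) hWb hb).mul_left _
  have hzero : ∀ α : Kˣ,
      ∫ x, ψ (algebraMap K (A0.Adl K) (α : K) * x) * W (dR409 α * g) ∂(μ.restrict D) = 0 := by
    intro α
    rw [integral_mul_const]
    obtain ⟨x₀, hx₀⟩ := hP.char.nontriv
    have h0 : ∫ x in D, ψ (algebraMap K (A0.Adl K) (α : K) * x) ∂μ = 0 := by
      refine setIntegral_char_eq_zero409 μ D hD
        (fun x => ψ (algebraMap K (A0.Adl K) (α : K) * x)) ?_ ?_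
        (algebraMap K (A0.Adl K) ((α⁻¹ : Kˣ) : K) * x₀) ?_
      · intro x y
        show ψ (algebraMap K (A0.Adl K) (α : K) * (x + y)) = _
        rw [mul_add, hP.char.map_add]
      · intro k
        show ψ (algebraMap K (A0.Adl K) (α : K) * algebraMap K (A0.Adl K) k) = 1
        rw [← map_mul, hP.char.triv]
      · show ψ (algebraMap K (A0.Adl K) (α : K)
            * (algebraMap K (A0.Adl K) ((α⁻¹ : Kˣ) : K) * x₀)) ≠ 1
        rw [← mul_assoc, ← map_mul, Units.mul_inv, map_one, one_mul]
        exact hx₀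
    rw [h0, zero_mul]
  have key := (hasSum_integral_of_summable_integral_norm hint hsum).tsum_eq
  simp_rw [hexp]
  rw [← key]
  simp only [hzero, tsum_zero]

end Fermat.Agent.LT.A2.H409

end
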