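import Fermat.Agent.LT.A2.H409.FTInvCore
import Fermat.Agent.LT.A2.H54.LocFinSpec

/-!
# Row LT, tower A2, station LOC-FIN: the leaves FOURIER INVERSION (helper409)

OFF-MAIN.

* `leafInv409 : LF54.LeafInv`  -- registry row 1581 = A2.03.1.1.06.04, VERBATIM the Prop of
  `LT/A2/H54/LocFinSpec.lean` (helper54@26071c838, sha256 8ccd9c5c6ed3304a);
* `ftInvC409 : LF361.FTInvC`   -- the same statement in the cut of helper361 (registry row 1414 =
  A2.03.1.1.LF.04, SPARE), VERBATIM the Prop of `LT/A2/H361/LocFinSpec.lean`
  (helper361@1f89b04c5, sha256 3a143d6b3ef16b24).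

Both are instances of `ftInv_general409` (`FTInvCore.lean`): the two specs have the same `ftL`
and `IsSB` (definitionally).
-/

set_option autoImplicit false
set_option linter.style.haveILetI false

open IsDedekindDomain NumberField MeasureTheory
open scoped Topology Valued

noncomputable section

namespace Fermat.Agent.LT.A2.H409

/-- The completion at a finite place is a proper space. -/
theorem properSpace_adicCompletion409 (K : Type) [Field K] [NumberField K]
    (v : HeightOneSpectrum (𝓞 K)) : ProperSpace (v.adicCompletion K) :=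
  Valued.integer.properSpace_iff_compactSpace_integer.mpr
    (Fermat.Agent.LT.H767.compactSpace_integer_adicCompletion K v)

/-- **LEAF `A2.03.1.1.LF.04` = `LF361.FTInvC`** (cut of helper361). -/
theorem ftInvC409 : LF361.FTInvC := by
  intro K _ _ v t n ψ μ hD hψ hne hμ
  haveI : ProperSpace (v.adicCompletion K) := properSpace_adicCompletion409 K v
  obtain ⟨c, hc, h⟩ := ftInv_general409 t n hD hψ hne hμ
  exact ⟨c, hc, h⟩

/-- **LEAF `A2.03.1.1.06.04` = `LF54.LeafInv`** (cut of helper54). -/
theorem leafInv409 : LF54.LeafInv := by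
  intro K _ _ v t n ψ μ hctx
  haveI : ProperSpace (v.adicCompletion K) := properSpace_adicCompletion409 K v
  obtain ⟨c, hc, h⟩ := ftInv_general409 t n hctx.disc
    (ψ := ψ) ⟨hctx.char.1, hctx.char.2.1, hctx.char.2.2.1⟩ hctx.char.2.2.2 (μ := μ) hctx.haar
  exact ⟨c, hc, fun Φ hΦ ξ => h Φ hΦ ξ⟩

end Fermat.Agent.LT.A2.H409

end
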