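import Mathlib
import Fermat.Agent.LT.A2.H496.FTSB

/-!
# Row LT, tower A2, station LOC-FIN: FOURIER INVERSION on `S(k²)` (helper409)

OFF-MAIN.  `k` a nonarchimedean local field (nontrivially normed, ultrametric, proper),
`Q(x, y) = x² + t x y + n y²` with `t² - 4 n ≠ 0`, `B` its polar form, `ψ` a nontrivial continuous
unitary character of `k`, `μ` a Haar measure of `k`, `FT Φ (ξ) = ∫ Φ(y) ψ(B(ξ, y)) dy`.

`ftInv_general409 : ∃ c > 0, ∀ Φ Schwartz--Bruhat, ∀ ξ, FT (FT Φ) ξ = c Φ(-ξ)`.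

Proof (NO duality of lattices, NO index computation).  Let `M_a = {η : ‖η‖ ≤ ‖a‖}` (a compact
open subgroup, stable under the integers) and `M_a^⊥ = {z : ψ(B(η, z)) = 1 ∀ η ∈ M_a}`.

* `M_a^⊥` is closed, contains a ball (`ψ` is trivial on a ball) and is contained in the ball of
  radius `E / ‖a‖` (the Gram determinant of `B` is `4 n - t² ≠ 0`, `ψ` is nontrivial).
* orthogonality: `∫_{M_a} ψ(B(η, z)) dη = vol(M_a) 1_{M_a^⊥}(z)` (translation by `η₁ ∈ M_a`).
* `FT Φ` is supported in `M_a` for `‖a‖` large (helper496); Fubini on `M_a × supp Φ` gives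
  `FT (FT Φ) ξ = vol(M_a) ∫ Φ(y) 1_{M_a^⊥}(y + ξ) dy = vol(M_a) vol(M_a^⊥) Φ(-ξ)` as soon as `Φ`
  is invariant under the translations by `M_a^⊥`.
* So `FT FT Φ = c_a Φ(-·)` for `‖a‖ ≥ R(Φ)`; the test function `Φ₀ = 1_{M_1}` shows that `c_a`
  does not depend on `a` for `‖a‖ ≥ R(Φ₀)`.

Imports: Mathlib, `LT/A2/H496/FTSB.lean` (helper496, byte-identical; with the Spec closure of
helper361 and `LT/H767/LocalCompact.lean`).
-/

set_option autoImplicit false
set_option linter.unusedSectionVars false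
set_option linter.style.haveILetI false

open MeasureTheory
open scoped Topology

noncomputable section

namespace Fermat.Agent.LT.A2.H409

open Fermat.Agent.LT.A2.WX467 Fermat.Agent.LT.A2.LF361 Fermat.Agent.LT.A2.LF496

variable {k : Type} [NontriviallyNormedField k] [IsUltrametricDist k]

/-! ## 1. The polar form -/

theorem bfL_symm409 (t n : k) (ξ y : k × k) : bfL t n ξ y = bfL t n y ξ := by
  simp only [bfL, qfL, Prod.fst_add, Prod.snd_add]
  ring

theorem bfL_neg_right409 (t n : k) (ξ y : k × k) : bfL t n ξ (-y) = -bfL t n ξ y := by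
  simp only [bfL, qfL, Prod.fst_add, Prod.snd_add, Prod.fst_neg, Prod.snd_neg]
  ring

theorem continuous_bfL_left409 (t n : k) (z : k × k) :
    Continuous fun η : k × k => bfL t n η z := by
  unfold bfL qfL
  fun_prop

theorem continuous_bfL409 (t n : k) :
    Continuous fun p : (k × k) × (k × k) => bfL t n p.1 p.2 := by
  unfold bfL qfL
  fun_prop

theorem char_neg409 {ψ : k → ℂ} (hψ : IsCharL ψ) (x : k) : ψ (-x) * ψ x = 1 := by
  rw [← hψ.2.1, neg_add_cancel, char_zero496 hψ]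

/-! ## 2. The boxes -/

/-- The box `M_a = {η : ‖η‖ ≤ ‖a‖}`. -/
def box409 (a : k) : Set (k × k) := {η | ‖η‖ ≤ ‖a‖}

theorem mem_box409 (a : k) (η : k × k) : η ∈ box409 a ↔ ‖η.1‖ ≤ ‖a‖ ∧ ‖η.2‖ ≤ ‖a‖ := by
  show ‖η‖ ≤ ‖a‖ ↔ _
  rw [Prod.norm_def, max_le_iff]

theorem box_add409 {a : k} {η η' : k × k} (h : η ∈ box409 a) (h' : η' ∈ box409 a) :
    η + η' ∈ box409 a := by
  rw [mem_box409] at *
  exact ⟨(IsUltrametricDist.norm_add_le_max _ _).trans (max_le h.1 h'.1),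
    (IsUltrametricDist.norm_add_le_max _ _).trans (max_le h.2 h'.2)⟩

theorem box_neg409 {a : k} {η : k × k} (h : η ∈ box409 a) : -η ∈ box409 a := by
  show ‖-η‖ ≤ ‖a‖
  rw [norm_neg]
  exact h

theorem box_smul409 {a c : k} (hc : ‖c‖ ≤ 1) {η : k × k} (h : η ∈ box409 a) :
    c • η ∈ box409 a := by
  show ‖c • η‖ ≤ ‖a‖
  rw [norm_smul]
  calc ‖c‖ * ‖η‖ ≤ 1 * ‖η‖ := mul_le_mul_of_nonneg_right hc (norm_nonneg _)
    _ = ‖η‖ := one_mul _
    _ ≤ ‖a‖ := h

theorem box_add_iff409 {a : k} {η η₁ : k × k} (h₁ : η₁ ∈ box409 a) :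
    η + η₁ ∈ box409 a ↔ η ∈ box409 a := by
  constructor
  · intro h
    have := box_add409 h (box_neg409 h₁)
    rwa [add_neg_cancel_right] at this
  · intro h
    exact box_add409 h h₁

theorem box_eq_prod409 (a : k) :
    box409 a = Metric.closedBall (0 : k) ‖a‖ ×ˢ Metric.closedBall (0 : k) ‖a‖ := by
  ext η
  rw [mem_box409, Set.mem_prod, mem_closedBall_zero_iff, mem_closedBall_zero_iff]

theorem isOpen_box409 {a : k} (ha : a ≠ 0) : IsOpen (box409 a) := by
  rw [box_eq_prod409]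
  exact (IsUltrametricDist.isOpen_closedBall 0 (norm_ne_zero_iff.2 ha)).prod
    (IsUltrametricDist.isOpen_closedBall 0 (norm_ne_zero_iff.2 ha))

theorem isClosed_box409 (a : k) : IsClosed (box409 a) := by
  rw [box_eq_prod409]
  exact Metric.isClosed_closedBall.prod Metric.isClosed_closedBall

theorem isCompact_box409 [ProperSpace k] (a : k) : IsCompact (box409 a) := by
  rw [box_eq_prod409]
  exact (isCompact_closedBall 0 _).prod (isCompact_closedBall 0 _)

theorem zero_mem_box409 (a : k) : (0 : k × k) ∈ box409 a := by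
  show ‖(0 : k × k)‖ ≤ ‖a‖
  rw [norm_zero]
  exact norm_nonneg _

theorem continuous_indicator_box409 {a : k} (ha : a ≠ 0) :
    Continuous ((box409 a).indicator fun _ : k × k => (1 : ℂ)) :=
  (IsClopen.continuous_indicator ⟨isClosed_box409 a, isOpen_box409 ha⟩ continuous_const)

/-! ## 3. The dual of a box -/

/-- `M_a^⊥ = {z : ψ(B(η, z)) = 1 for all η ∈ M_a}`. -/
def dual409 (t n : k) (ψ : k → ℂ) (a : k) : Set (k × k) :=
  {z | ∀ η ∈ box409 a, ψ (bfL t n η z) = 1}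

theorem isClosed_dual409 (t n : k) {ψ : k → ℂ} (hψ : IsCharL ψ) (a : k) :
    IsClosed (dual409 t n ψ a) := by
  have e : dual409 t n ψ a = ⋂ η ∈ box409 a, {z | ψ (bfL t n η z) = 1} := by
    ext z
    simp only [dual409, Set.mem_ofPred_eq, Set.mem_iInter]
  rw [e]
  refine isClosed_biInter fun η _ => isClosed_eq (hψ.1.comp ?_) continuous_const
  have := continuous_bfL_left409 t n η
  have h2 : bfL t n η = fun z => bfL t n z η :=
    funext fun z => bfL_symm409 t n η z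
  rw [h2]
  exact this

/-- The dual of a box contains a ball. -/
theorem dual_contains_ball409 (t n : k) {ψ : k → ℂ} (hψ : IsCharL ψ) (a : k) :
    ∃ ε : ℝ, 0 < ε ∧ ∀ z : k × k, ‖z‖ < ε → z ∈ dual409 t n ψ a := by
  obtain ⟨δψ, hδψ, htriv⟩ := char_trivial_ball496 hψ
  set C : ℝ := ‖(2 : k)‖ + ‖t‖ + ‖t‖ + ‖(2 : k) * n‖ with hC
  have hC0 : 0 ≤ C := by
    have := norm_nonneg (2 : k)
    have := norm_nonneg t
    have := norm_nonneg ((2 : k) * n)
    rw [hC]; linarith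
  set D : ℝ := C * ‖a‖ + 1 with hD
  have hDpos : 0 < D := by
    have := mul_nonneg hC0 (norm_nonneg a)
    rw [hD]; linarith
  refine ⟨δψ / D, div_pos hδψ hDpos, fun z hz η hη => htriv _ ?_⟩
  have h1 := norm_bfL_le496 t n η z
  have h2 : ‖η‖ * ‖z‖ ≤ ‖a‖ * ‖z‖ := mul_le_mul_of_nonneg_right hη (norm_nonneg _)
  have h3 : C * (‖η‖ * ‖z‖) ≤ C * (‖a‖ * ‖z‖) := mul_le_mul_of_nonneg_left h2 hC0
  have h4 : C * (‖a‖ * ‖z‖) ≤ D * ‖z‖ := by
    have e : D * ‖z‖ = C * (‖a‖ * ‖z‖) + ‖z‖ := by rw [hD]; ring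
    rw [e]
    linarith [norm_nonneg z]
  have h5 : D * ‖z‖ < D * (δψ / D) := mul_lt_mul_of_pos_left hz hDpos
  have h6 : D * (δψ / D) = δψ := by field_simp
  linarith

/-- The dual of a box is bounded, with a bound `E / ‖a‖`. -/
theorem dual_bounded409 (t n : k) (hD : t ^ 2 - 4 * n ≠ 0) {ψ : k → ℂ} (hψ : IsCharL ψ)
    (hne : ∃ x, ψ x ≠ 1) :
    ∃ E : ℝ, 0 ≤ E ∧ ∀ a : k, a ≠ 0 → ∀ z ∈ dual409 t n ψ a, ‖z‖ * ‖a‖ ≤ E := by
  obtain ⟨x₀, hx₀⟩ := hne
  have hDn : 0 < ‖t ^ 2 - 4 * n‖ := norm_pos_iff.2 hD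
  set Cc : ℝ := ‖t‖ + ‖(2 : k) * n‖ + ‖(2 : k)‖ with hCc
  have hCc0 : 0 ≤ Cc := by
    have := norm_nonneg (2 : k)
    have := norm_nonneg t
    have := norm_nonneg ((2 : k) * n)
    rw [hCc]; linarith
  have hx₀0 : x₀ ≠ 0 := by
    intro h0
    rw [h0, char_zero496 hψ] at hx₀
    exact hx₀ rfl
  refine ⟨Cc * ‖x₀‖ / ‖t ^ 2 - 4 * n‖, div_nonneg (mul_nonneg hCc0 (norm_nonneg _)) hDn.le,
    fun a ha z hz => ?_⟩
  have ha0 : 0 < ‖a‖ := norm_pos_iff.2 ha
  -- `|B(η, z)| < |x₀|` on the box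
  have h2 : ∀ η ∈ box409 a, ‖bfL t n η z‖ < ‖x₀‖ := by
    intro η hη
    by_contra hcon
    rw [not_lt] at hcon
    have hb0 : bfL t n η z ≠ 0 := by
      intro h0
      rw [h0, norm_zero] at hcon
      exact hx₀0 (norm_le_zero_iff.mp hcon)
    set c : k := x₀ / bfL t n η z with hc
    have hc1 : ‖c‖ ≤ 1 := by
      rw [hc, norm_div]
      exact (div_le_one (norm_pos_iff.2 hb0)).2 hcon
    have := hz (c • η) (box_smul409 hc1 hη)
    rw [bfL_symm409, bfL_smul_right496, bfL_symm409, hc, div_mul_cancel₀ _ hb0] at this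
    exact hx₀ this
  have hl1 : ((a, 0) : k × k) ∈ box409 a := by
    rw [mem_box409]
    exact ⟨le_rfl, by simp⟩
  have hl2 : ((0, a) : k × k) ∈ box409 a := by
    rw [mem_box409]
    exact ⟨by simp, le_rfl⟩
  have hu := h2 _ hl1
  have hw := h2 _ hl2
  rw [bfL_symm409, bfL_e1_496, norm_mul] at hu
  rw [bfL_symm409, bfL_e2_496, norm_mul] at hw
  set u : k := 2 * z.1 + t * z.2 with hu_def
  set w : k := t * z.1 + 2 * n * z.2 with hw_def
  have e1 : (t ^ 2 - 4 * n) * z.1 = t * w - 2 * n * u := by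
    rw [hu_def, hw_def]; ring
  have e2 : (t ^ 2 - 4 * n) * z.2 = t * u - 2 * w := by
    rw [hu_def, hw_def]; ring
  have hu' : ‖u‖ * ‖a‖ ≤ ‖x₀‖ := by rw [mul_comm]; exact hu.le
  have hw' : ‖w‖ * ‖a‖ ≤ ‖x₀‖ := by rw [mul_comm]; exact hw.le
  have b1 : ‖t ^ 2 - 4 * n‖ * (‖z.1‖ * ‖a‖) ≤ Cc * ‖x₀‖ := by
    rw [← mul_assoc, ← norm_mul, e1]
    calc ‖t * w - 2 * n * u‖ * ‖a‖ ≤ (‖t * w‖ + ‖2 * n * u‖) * ‖a‖ :=
          mul_le_mul_of_nonneg_right (norm_sub_le _ _) ha0.le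
      _ = ‖t‖ * (‖w‖ * ‖a‖) + ‖(2 : k) * n‖ * (‖u‖ * ‖a‖) := by
          rw [norm_mul, norm_mul (2 * n) u]; ring
      _ ≤ ‖t‖ * ‖x₀‖ + ‖(2 : k) * n‖ * ‖x₀‖ :=
          add_le_add (mul_le_mul_of_nonneg_left hw' (norm_nonneg _))
            (mul_le_mul_of_nonneg_left hu' (norm_nonneg _))
      _ ≤ Cc * ‖x₀‖ := by
          rw [hCc]
          have := mul_nonneg (norm_nonneg (2 : k)) (norm_nonneg x₀)
          nlinarith
  have b2 : ‖t ^ 2 - 4 * n‖ * (‖z.2‖ * ‖a‖) ≤ Cc * ‖x₀‖ := by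
    rw [← mul_assoc, ← norm_mul, e2]
    calc ‖t * u - 2 * w‖ * ‖a‖ ≤ (‖t * u‖ + ‖2 * w‖) * ‖a‖ :=
          mul_le_mul_of_nonneg_right (norm_sub_le _ _) ha0.le
      _ = ‖t‖ * (‖u‖ * ‖a‖) + ‖(2 : k)‖ * (‖w‖ * ‖a‖) := by
          rw [norm_mul, norm_mul 2 w]; ring
      _ ≤ ‖t‖ * ‖x₀‖ + ‖(2 : k)‖ * ‖x₀‖ :=
          add_le_add (mul_le_mul_of_nonneg_left hu' (norm_nonneg _))
            (mul_le_mul_of_nonneg_left hw' (norm_nonneg _))
      _ ≤ Cc * ‖x₀‖ := by
          rw [hCc]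
          have := mul_nonneg (norm_nonneg ((2 : k) * n)) (norm_nonneg x₀)
          nlinarith
  rw [Prod.norm_def, max_mul_of_nonneg _ _ ha0.le, max_le_iff]
  constructor
  · rw [le_div_iff₀ hDn, mul_comm]
    exact b1
  · rw [le_div_iff₀ hDn, mul_comm]
    exact b2

/-! ## 4. Volumes -/

section Haar

variable [ProperSpace k]

/-- The volume of a subset of `k²` for `μ × μ`, as a real number. -/
def volR409 (μ : @Measure k (borel k)) (S : Set (k × k)) : ℝ :=
  letI : MeasurableSpace k := borel k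
  (μ.prod μ).real S

theorem intL_indicator409 (μ : @Measure k (borel k)) {S : Set (k × k)} (hS : IsClosed S) :
    intL μ (S.indicator fun _ => (1 : ℂ)) = ((volR409 μ S : ℝ) : ℂ) := by
  letI : MeasurableSpace k := borel k
  haveI : BorelSpace k := ⟨rfl⟩
  unfold intL volR409
  rw [integral_indicator_const (1 : ℂ) hS.measurableSet, Complex.real_smul, mul_one]

theorem volR_pos409 {μ : @Measure k (borel k)} (hμ : IsHaarL μ) {S : Set (k × k)}
    {U C : Set (k × k)} (hU : IsOpen U) (hUne : U.Nonempty) (hUS : U ⊆ S) (hC : IsCompact C)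
    (hSC : S ⊆ C) : 0 < volR409 μ S := by
  letI : MeasurableSpace k := borel k
  haveI : BorelSpace k := ⟨rfl⟩
  haveI : IsFiniteMeasureOnCompacts μ := ⟨fun C hC => hμ.2.1 C hC⟩
  haveI : Measure.IsOpenPosMeasure μ := ⟨fun U hU hne => (hμ.2.2 U hU hne).ne'⟩
  unfold volR409
  have h1 : 0 < (μ.prod μ) S := lt_of_lt_of_le (hU.measure_pos (μ.prod μ) hUne) (measure_mono hUS)
  have h2 : (μ.prod μ) S < ⊤ := lt_of_le_of_lt (measure_mono hSC) hC.measure_lt_top
  exact ENNReal.toReal_pos h1.ne' h2.ne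

theorem volR_box_pos409 {μ : @Measure k (borel k)} (hμ : IsHaarL μ) {a : k} (ha : a ≠ 0) :
    0 < volR409 μ (box409 a) :=
  volR_pos409 hμ (isOpen_box409 ha) ⟨0, zero_mem_box409 a⟩ subset_rfl (isCompact_box409 a)
    subset_rfl

theorem volR_dual_pos409 (t n : k) (hD : t ^ 2 - 4 * n ≠ 0) {ψ : k → ℂ} (hψ : IsCharL ψ)
    (hne : ∃ x, ψ x ≠ 1) {μ : @Measure k (borel k)} (hμ : IsHaarL μ) {a : k} (ha : a ≠ 0) :
    0 < volR409 μ (dual409 t n ψ a) := by
  obtain ⟨ε, hε, hball⟩ := dual_contains_ball409 t n hψ a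
  obtain ⟨E, hE0, hE⟩ := dual_bounded409 t n hD hψ hne
  have ha0 : 0 < ‖a‖ := norm_pos_iff.2 ha
  refine volR_pos409 hμ (U := Metric.ball 0 ε) (C := Metric.closedBall 0 (E / ‖a‖))
    Metric.isOpen_ball ⟨0, Metric.mem_ball_self hε⟩ ?_ (isCompact_closedBall _ _) ?_
  · intro z hz
    exact hball z (by rwa [mem_ball_zero_iff] at hz)
  · intro z hz
    rw [mem_closedBall_zero_iff, le_div_iff₀ ha0]
    exact hE a ha z hz

/-! ## 5. Orthogonality -/

theorem intL_const_mul409 (μ : @Measure k (borel k)) (c : ℂ) (g : k × k → ℂ) :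
    intL μ (fun y => c * g y) = c * intL μ g := by
  unfold intL
  exact integral_const_mul _ _

/-- `∫_{M_a} ψ(B(η, z)) dη = vol(M_a) 1_{M_a^⊥}(z)`. -/
theorem int_box_char409 (t n : k) {ψ : k → ℂ} (hψ : IsCharL ψ) {μ : @Measure k (borel k)}
    (hμ : IsHaarL μ) (a : k) (z : k × k) :
    intL μ (fun η => (box409 a).indicator (fun _ => (1 : ℂ)) η * ψ (bfL t n η z))
      = (dual409 t n ψ a).indicator (fun _ => ((volR409 μ (box409 a) : ℝ) : ℂ)) z := by
  by_cases hz : z ∈ dual409 t n ψ a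
  · rw [Set.indicator_of_mem hz]
    have e : (fun η => (box409 a).indicator (fun _ => (1 : ℂ)) η * ψ (bfL t n η z))
        = (box409 a).indicator fun _ => (1 : ℂ) := by
      funext η
      by_cases hη : η ∈ box409 a
      · rw [Set.indicator_of_mem hη, hz η hη, mul_one]
      · rw [Set.indicator_of_notMem hη, zero_mul]
    rw [e]
    exact intL_indicator409 μ (isClosed_box409 a)
  · rw [Set.indicator_of_notMem hz]
    have hz' : ∃ η₁ ∈ box409 a, ψ (bfL t n η₁ z) ≠ 1 := by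
      by_contra hcon
      push Not at hcon
      exact hz hcon
    obtain ⟨η₁, hη₁, hne⟩ := hz'
    set g : k × k → ℂ :=
      fun η => (box409 a).indicator (fun _ => (1 : ℂ)) η * ψ (bfL t n η z) with hg
    have h1 : intL μ (fun η => g (η + η₁)) = intL μ g := intL_add_right496 hμ g η₁
    have h2 : (fun η => g (η + η₁)) = fun η => ψ (bfL t n η₁ z) * g η := by
      funext η
      show (box409 a).indicator (fun _ => (1 : ℂ)) (η + η₁) * ψ (bfL t n (η + η₁) z)
        = ψ (bfL t n η₁ z) * ((box409 a).indicator (fun _ => (1 : ℂ)) η * ψ (bfL t n η z))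
      rw [bfL_add_left496, hψ.2.1]
      by_cases hη : η ∈ box409 a
      · rw [Set.indicator_of_mem hη, Set.indicator_of_mem ((box_add_iff409 hη₁).2 hη)]
        ring
      · rw [Set.indicator_of_notMem hη,
          Set.indicator_of_notMem (fun h => hη ((box_add_iff409 hη₁).1 h))]
        ring
    rw [h2, intL_const_mul409] at h1
    have h3 : (ψ (bfL t n η₁ z) - 1) * intL μ g = 0 := by
      rw [sub_mul, one_mul, h1, sub_self]
    rcases mul_eq_zero.mp h3 with h0 | h0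
    · exact absurd (sub_eq_zero.mp h0) hne
    · exact h0

/-! ## 6. The main computation -/

theorem ftft_eq409 (t n : k) (hD : t ^ 2 - 4 * n ≠ 0) {ψ : k → ℂ} (hψ : IsCharL ψ)
    (hne : ∃ x, ψ x ≠ 1) {μ : @Measure k (borel k)} (hμ : IsHaarL μ) {Φ : k × k → ℂ}
    (hΦ : IsSB Φ) :
    ∃ R : ℝ, 0 ≤ R ∧ ∀ a : k, R < ‖a‖ → ∀ ξ : k × k,
      ftL t n ψ μ (ftL t n ψ μ Φ) ξ
        = ((volR409 μ (box409 a) * volR409 μ (dual409 t n ψ a) : ℝ) : ℂ) * Φ (-ξ) := by
  obtain ⟨R₁, hR₁⟩ := ftL_support_bounded496 t n hD hψ hne hμ hΦ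
  obtain ⟨δ, hδ, hinv⟩ := sb_uniform496 hΦ
  obtain ⟨E, hE0, hE⟩ := dual_bounded409 t n hD hψ hne
  refine ⟨max (max R₁ (E / δ)) 0, le_max_right _ _, fun a ha ξ => ?_⟩
  have ha0 : 0 < ‖a‖ := lt_of_le_of_lt (le_max_right _ _) ha
  have hane : a ≠ 0 := norm_pos_iff.1 ha0
  have haR₁ : R₁ < ‖a‖ := lt_of_le_of_lt ((le_max_left _ _).trans (le_max_left _ _)) ha
  have haE : E / δ < ‖a‖ := lt_of_le_of_lt ((le_max_right _ _).trans (le_max_left _ _)) ha
  have hsupp : ∀ η : k × k, η ∉ box409 a → ftL t n ψ μ Φ η = 0 := by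
    intro η hη
    by_contra h0
    exact hη ((hR₁ η h0).trans haR₁.le)
  have hdual : ∀ z ∈ dual409 t n ψ a, ‖z‖ < δ := by
    intro z hz
    have h1 := hE a hane z hz
    have h2 : E < δ * ‖a‖ := by rwa [div_lt_iff₀' hδ] at haE
    by_contra hcon
    rw [not_lt] at hcon
    have h3 : δ * ‖a‖ ≤ ‖z‖ * ‖a‖ := mul_le_mul_of_nonneg_right hcon ha0.le
    linarith
  letI : MeasurableSpace k := borel k
  haveI : BorelSpace k := ⟨rfl⟩
  haveI : IsFiniteMeasureOnCompacts μ := ⟨fun C hC => hμ.2.1 C hC⟩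
  set V : ℂ := ((volR409 μ (box409 a) : ℝ) : ℂ) with hV
  set F : k × k → k × k → ℂ := fun η y =>
    (box409 a).indicator (fun _ => (1 : ℂ)) η * (Φ y * ψ (bfL t n η y)) * ψ (bfL t n ξ η)
    with hF
  -- integrability on the product
  have hFc : Continuous (Function.uncurry F) := by
    have c1 : Continuous fun p : (k × k) × (k × k) =>
        (box409 a).indicator (fun _ => (1 : ℂ)) p.1 :=
      (continuous_indicator_box409 hane).comp continuous_fst
    have c2 : Continuous fun p : (k × k) × (k × k) => Φ p.2 :=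
      hΦ.1.continuous.comp continuous_snd
    have c3 : Continuous fun p : (k × k) × (k × k) => ψ (bfL t n p.1 p.2) :=
      hψ.1.comp (continuous_bfL409 t n)
    have c4 : Continuous fun p : (k × k) × (k × k) => ψ (bfL t n ξ p.1) := by
      refine hψ.1.comp ?_
      have h2 : (fun p : (k × k) × (k × k) => bfL t n ξ p.1)
          = fun p => bfL t n p.1 ξ := funext fun p => bfL_symm409 t n ξ p.1
      rw [h2]
      exact (continuous_bfL_left409 t n ξ).comp continuous_fst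
    exact (c1.mul (c2.mul c3)).mul c4
  have hFs : HasCompactSupport (Function.uncurry F) := by
    refine HasCompactSupport.of_support_subset_isCompact
      ((isCompact_box409 a).prod hΦ.2) ?_
    intro p hp
    rw [Function.mem_support] at hp
    constructor
    · by_contra h
      apply hp
      show (box409 a).indicator (fun _ => (1 : ℂ)) p.1 * (Φ p.2 * ψ (bfL t n p.1 p.2))
        * ψ (bfL t n ξ p.1) = 0
      rw [Set.indicator_of_notMem h, zero_mul, zero_mul]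
    · by_contra h
      apply hp
      show (box409 a).indicator (fun _ => (1 : ℂ)) p.1 * (Φ p.2 * ψ (bfL t n p.1 p.2))
        * ψ (bfL t n ξ p.1) = 0
      rw [image_eq_zero_of_notMem_tsupport h, zero_mul, mul_zero, zero_mul]
  have hFint : Integrable (Function.uncurry F) ((μ.prod μ).prod (μ.prod μ)) :=
    hFc.integrable_of_hasCompactSupport hFs
  have hswap := integral_integral_swap hFint
  -- the inner integral in `y`
  have hin1 : ∀ η : k × k, ∫ y, F η y ∂(μ.prod μ)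
      = ftL t n ψ μ Φ η * ψ (bfL t n ξ η) := by
    intro η
    have e : (fun y => F η y) = fun y =>
        ((box409 a).indicator (fun _ => (1 : ℂ)) η * ψ (bfL t n ξ η))
          * (Φ y * ψ (bfL t n η y)) := by
      funext y
      simp only [hF]
      ring
    rw [e, integral_const_mul]
    show (box409 a).indicator (fun _ => (1 : ℂ)) η * ψ (bfL t n ξ η) * ftL t n ψ μ Φ η = _
    by_cases hη : η ∈ box409 a
    · rw [Set.indicator_of_mem hη]
      ring
    · rw [hsupp η hη, mul_zero, zero_mul]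
  -- the inner integral in `η`
  have hin2 : ∀ y : k × k, ∫ η, F η y ∂(μ.prod μ)
      = (V * Φ (-ξ)) * (dual409 t n ψ a).indicator (fun _ => (1 : ℂ)) (y + ξ) := by
    intro y
    have e : (fun η => F η y) = fun η =>
        Φ y * ((box409 a).indicator (fun _ => (1 : ℂ)) η * ψ (bfL t n η (y + ξ))) := by
      funext η
      simp only [hF]
      rw [bfL_add_right496, hψ.2.1, bfL_symm409 t n ξ η]
      ring
    rw [e, integral_const_mul]
    have := int_box_char409 t n hψ hμ a (y + ξ)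
    unfold intL at this
    rw [this]
    by_cases hy : y + ξ ∈ dual409 t n ψ a
    · rw [Set.indicator_of_mem hy, Set.indicator_of_mem hy, mul_one]
      have h1 : Φ y = Φ (-ξ) := by
        have := hinv (-ξ) (y + ξ) (hdual _ hy)
        rw [← this]
        congr 1
        abel
      rw [h1, hV]
      ring
    · rw [Set.indicator_of_notMem hy, Set.indicator_of_notMem hy, mul_zero, mul_zero]
  -- assemble
  have h1 : ftL t n ψ μ (ftL t n ψ μ Φ) ξ = ∫ η, ∫ y, F η y ∂(μ.prod μ) ∂(μ.prod μ) := by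
    show intL μ (fun η => ftL t n ψ μ Φ η * ψ (bfL t n ξ η)) = _
    unfold intL
    congr 1
    funext η
    exact (hin1 η).symm
  rw [h1, hswap]
  simp only [hin2]
  rw [integral_const_mul]
  have h2 : ∫ y, (dual409 t n ψ a).indicator (fun _ => (1 : ℂ)) (y + ξ) ∂(μ.prod μ)
      = ((volR409 μ (dual409 t n ψ a) : ℝ) : ℂ) := by
    have := intL_add_right496 hμ ((dual409 t n ψ a).indicator (fun _ => (1 : ℂ))) ξ
    rw [intL_indicator409 μ (isClosed_dual409 t n hψ a)] at this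
    unfold intL at this
    exact this
  rw [h2, hV]
  push_cast
  ring

/-! ## 7. Fourier inversion -/

theorem isSB_indicator_box409 {a : k} (ha : a ≠ 0) :
    IsSB ((box409 a).indicator fun _ : k × k => (1 : ℂ)) := by
  constructor
  · rw [IsLocallyConstant.iff_exists_open]
    intro x
    by_cases hx : x ∈ box409 a
    · refine ⟨box409 a, isOpen_box409 ha, hx, fun y hy => ?_⟩
      rw [Set.indicator_of_mem hy, Set.indicator_of_mem hx]
    · refine ⟨(box409 a)ᶜ, (isClosed_box409 a).isOpen_compl, hx, fun y hy => ?_⟩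
      rw [Set.indicator_of_notMem hy, Set.indicator_of_notMem hx]
  · refine HasCompactSupport.of_support_subset_isCompact (isCompact_box409 a) ?_
    intro x hx
    by_contra h
    exact hx (Set.indicator_of_notMem h _)

/-- **Fourier inversion on `S(k²)`**, `k` a nonarchimedean local field. -/
theorem ftInv_general409 (t n : k) (hD : t ^ 2 - 4 * n ≠ 0) {ψ : k → ℂ} (hψ : IsCharL ψ)
    (hne : ∃ x, ψ x ≠ 1) {μ : @Measure k (borel k)} (hμ : IsHaarL μ) :
    ∃ c : ℝ, 0 < c ∧ ∀ Φ : k × k → ℂ, IsSB Φ → ∀ ξ : k × k,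
      ftL t n ψ μ (ftL t n ψ μ Φ) ξ = (c : ℂ) * Φ (-ξ) := by
  set Φ₀ : k × k → ℂ := (box409 (1 : k)).indicator fun _ => (1 : ℂ) with hΦ₀
  have hΦ₀sb : IsSB Φ₀ := isSB_indicator_box409 one_ne_zero
  have hΦ₀0 : Φ₀ (-0) = 1 := by
    rw [neg_zero, hΦ₀, Set.indicator_of_mem (zero_mem_box409 1)]
  obtain ⟨R₀, hR₀0, hR₀⟩ := ftft_eq409 t n hD hψ hne hμ hΦ₀sb
  obtain ⟨a₀, ha₀⟩ := NormedField.exists_lt_norm k R₀
  have ha₀ne : a₀ ≠ 0 := norm_pos_iff.1 (lt_of_le_of_lt hR₀0 ha₀)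
  refine ⟨volR409 μ (box409 a₀) * volR409 μ (dual409 t n ψ a₀),
    mul_pos (volR_box_pos409 hμ ha₀ne) (volR_dual_pos409 t n hD hψ hne hμ ha₀ne),
    fun Φ hΦ ξ => ?_⟩
  obtain ⟨R, -, hR⟩ := ftft_eq409 t n hD hψ hne hμ hΦ
  obtain ⟨a, ha⟩ := NormedField.exists_lt_norm k (max R R₀)
  have h1 := hR a (lt_of_le_of_lt (le_max_left _ _) ha) ξ
  have h2 := hR₀ a (lt_of_le_of_lt (le_max_right _ _) ha) 0
  have h3 := hR₀ a₀ ha₀ 0
  rw [hΦ₀0, mul_one] at h2 h3
  rw [h1, ← h2, h3]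

end Haar

end Fermat.Agent.LT.A2.H409

end
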