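import Fermat.Agent.LT.A2.H467.WeilExSpec

/-!
# Row LT, tower A2, station A2.03.1 `WL.WeilExC`, leaf A2.03.1.5 `WX467.RatC` (helper409)

OFF-MAIN.  `ratC409 : Fermat.Agent.LT.A2.WX467.RatC`, VERBATIM against
`LT/A2/H467/WeilExSpec.lean` (helper467@50fb7012e, sha256 966c09789567b43e).

`diagK` and `torK` (the rational Borel formulas of `KData.IsWeil`) are the adelic formulas
`diagA`, `torA` of `BorelOut` at the principal ideles: `η = 1` on `K^×` (`WeylOut.rat`) and
`|a|_𝔸 = 1` for `a ∈ K^×` (product formula, `T1.AdNormC`).  No Weil representation.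
-/

set_option autoImplicit false
set_option linter.style.haveILetI false

open IsDedekindDomain NumberField AutomorphicForm MeasureTheory
open scoped MatrixGroups

noncomputable section

namespace Fermat.Agent.LT.A2.H409

open Fermat.Agent.LT.H130 Fermat.Agent.LT.H556

variable {K : Type} [Field K] [NumberField K]

/-- The principal idele of `a ∈ K`, `a ≠ 0`. -/
def princIdele409 (a : K) (ha : a ≠ 0) : (A0.Adl K)ˣ :=
  T1.ratUnit K (Units.mk0 a ha)

theorem coe_princIdele409 (a : K) (ha : a ≠ 0) :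
    ((princIdele409 a ha : (A0.Adl K)ˣ) : A0.Adl K) = algebraMap K (A0.Adl K) a := rfl

theorem coe_inv_princIdele409 (a : K) (ha : a ≠ 0) :
    (((princIdele409 a ha)⁻¹ : (A0.Adl K)ˣ) : A0.Adl K) = algebraMap K (A0.Adl K) a⁻¹ := by
  rw [princIdele409, ← map_inv]
  show algebraMap K (A0.Adl K) (((Units.mk0 a ha)⁻¹ : Kˣ) : K) = _
  rw [Units.val_inv_eq_inv_val, Units.val_mk0]

theorem adNorm_princIdele409 (hT1 : T1.T1Out K) (a : K) (ha : a ≠ 0) :
    T1.adNorm K ((princIdele409 a ha : (A0.Adl K)ˣ) : A0.Adl K) = 1 :=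
  hT1.adNorm.2.2.1 (Units.mk0 a ha)

/-- The adele ring is not the zero ring (look at an infinite place). -/
theorem nontrivial_adl409 (K : Type) [Field K] [NumberField K] : Nontrivial (A0.Adl K) := by
  refine ⟨⟨0, 1, ?_⟩⟩
  intro h
  have w : InfinitePlace K := Classical.arbitrary _
  have h1 : (0 : A0.Adl K).1 w = (1 : A0.Adl K).1 w := by rw [h]
  exact zero_ne_one h1

/-- If the image of `a ∈ K` in the adeles is a unit, then `a ≠ 0`. -/
theorem ne_zero_of_isUnit_emb409 (a : K) (h : IsUnit (algebraMap K (A0.Adl K) a)) : a ≠ 0 := by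
  haveI := nontrivial_adl409 K
  rintro rfl
  rw [map_zero] at h
  exact not_isUnit_zero h

/-- **A2.03.1.5 RAT.** -/
theorem ratC409 : Fermat.Agent.LT.A2.WX467.RatC := by
  intro K _ _ D η hT1 hB hW
  refine ⟨?_, ?_⟩
  · -- diagK
    intro s a ha hs g m ξ hadm
    have hsA : WL.IsDiagSLA s (princIdele409 a ha) := by
      unfold WL.IsDiagSLA
      rw [coe_princIdele409, coe_inv_princIdele409]
      exact hs
    have h := hB.diagA s (princIdele409 a ha) hsA g m ξ hadm
    rw [h, adNorm_princIdele409 hT1 a ha, coe_princIdele409]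
    have hη : η (princIdele409 a ha) = 1 := hW.rat (Units.mk0 a ha)
    rw [hη]
    simp
  · -- torK
    intro μ' d a hμ hdet hd g m ξ hadm
    have hμA : InTorus D.t D.n μ' := by
      obtain ⟨x, y, hxy⟩ := hμ
      exact ⟨_, _, hxy⟩
    have hdA : WL.IsDiagOneA d (Matrix.GeneralLinearGroup.det μ') := by
      unfold WL.IsDiagOneA
      rw [hdet]
      exact hd
    have ha : a ≠ 0 := by
      apply ne_zero_of_isUnit_emb409
      rw [← hdet]
      exact Units.isUnit _
    have hnorm : T1.adNorm K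
        ((Matrix.GeneralLinearGroup.det μ' : (A0.Adl K)ˣ) : A0.Adl K) = 1 := by
      rw [hdet, ← coe_princIdele409 a ha]
      exact adNorm_princIdele409 hT1 a ha
    have h := hB.torA μ' d hμA hdA g m ξ hadm
    rw [hnorm, Real.sqrt_one] at h
    rw [← h]
    simp

end Fermat.Agent.LT.A2.H409

end
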